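/-
Project BAD, layer RN (residue norm formula, owner helper287).  Definitions.

`F₂ / F₁` a finite extension of fields, `V` a discrete valuation ring of `F₁`, `W i` (`i : ι`)
discrete valuation rings of `F₂` above `V` with ramification indices `e i` and residue degrees
(at least) `f i`, such that `∑ e i * f i = [F₂ : F₁]`.  Language of `BAD/Defs.lean`.
-/
import Fermat.Agent.BAD.Defs

set_option autoImplicit false

namespace Fermat.Agent.BAD.ResNorm

/-- `ord x ≥ m`, with the convention `ord 0 = ∞`. -/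
def Ge {F : Type*} [Field F] {W : ValuationSubring F} (o : Ord W) (m : ℤ) (x : F) : Prop :=
  x = 0 ∨ m ≤ o.ord x

variable {F₁ F₂ : Type*} [Field F₁] [Field F₂] [Algebra F₁ F₂]
variable {V : ValuationSubring F₁} {ι : Type*} [Fintype ι] {W : ι → ValuationSubring F₂}

/-- The hypotheses of the residue norm formula. -/
structure Data (oV : Ord V) (oW : ∀ i, Ord (W i)) (e f : ι → ℕ) : Prop where
  finite : FiniteDimensional F₁ F₂
  /-- the list of valuations above `V` is complete -/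
  deg : ∑ i, e i * f i = Module.finrank F₁ F₂
  e_pos : ∀ i, 0 < e i
  /-- ramification indices -/
  ram : ∀ (i : ι) (x : F₁), x ≠ 0 → (oW i).ord (algebraMap F₁ F₂ x) = e i * oV.ord x
  /-- weak approximation (orders) -/
  approx : ∀ b : ι → ℤ, ∃ g : F₂, g ≠ 0 ∧ ∀ i, (oW i).ord g = b i
  /-- the residue degree of `W i` is at least `f i`: `f i` elements, integral at all the `W j`,
  whose residues at `W i` are linearly independent over the residue field of `V` -/
  res : ∀ i, ∃ t : Fin (f i) → F₂, (∀ k j, t k ∈ W j) ∧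
    ∀ c : Fin (f i) → F₁, (∀ k, c k ∈ V) →
      ∑ k, algebraMap F₁ F₂ (c k) * t k ∈ (W i).nonunits → ∀ k, c k ∈ V.nonunits

/-- The index set of the adapted basis. -/
abbrev Idx (e f : ι → ℕ) : Type _ := Σ i : ι, Fin (e i) × Fin (f i)

/-- An adapted family `b ⟨i, s, k⟩` (think of `g_{i,s} * t_{i,k}` with `ord_i g_{i,s} = s` and
`ord_j g_{i,s} = e j` for `j ≠ i`). -/
structure Adapted (oV : Ord V) (oW : ∀ i, Ord (W i)) (e f : ι → ℕ) (b : Idx e f → F₂) : Prop where
  ge_self : ∀ a : Idx e f, Ge (oW a.1) ((a.2.1 : ℕ) : ℤ) (b a)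
  ge_other : ∀ (a : Idx e f) (j : ι), j ≠ a.1 → Ge (oW j) (e j : ℤ) (b a)
  indep : ∀ x : Idx e f → F₁, (∀ a, x a ∈ V) → ∀ (i : ι) (s₀ : ℕ), s₀ ≤ e i →
    Ge (oW i) (s₀ : ℤ) (∑ a, algebraMap F₁ F₂ (x a) * b a) →
    ∀ (s : Fin (e i)) (k : Fin (f i)), (s : ℕ) < s₀ → x ⟨i, s, k⟩ ∈ V.nonunits

end Fermat.Agent.BAD.ResNorm
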