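/-
Project BAD, layer RN, node RN-0 (proofs helper243): API of `Ord` / `Ge`.
-/
import Fermat.Agent.BAD.ResNorm.Defs

set_option autoImplicit false

namespace Fermat.Agent.BAD.ResNorm

open Module

section OrdAPI

variable {F : Type*} [Field F] {W : ValuationSubring F} (o : Ord W)

theorem ord_one : o.ord 1 = 0 := by
  have h := o.ord_mul 1 1 one_ne_zero one_ne_zero
  rw [mul_one] at h
  omega

theorem ord_inv {x : F} (hx : x ≠ 0) : o.ord x⁻¹ = - o.ord x := by
  have h := o.ord_mul x x⁻¹ hx (inv_ne_zero hx)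
  rw [mul_inv_cancel₀ hx, ord_one] at h
  omega

theorem ord_div {x y : F} (hx : x ≠ 0) (hy : y ≠ 0) : o.ord (x / y) = o.ord x - o.ord y := by
  rw [div_eq_mul_inv, o.ord_mul _ _ hx (inv_ne_zero hy), ord_inv o hy]
  ring

theorem ord_pow {x : F} (hx : x ≠ 0) (k : ℕ) : o.ord (x ^ k) = k * o.ord x := by
  induction k with
  | zero => simp [ord_one]
  | succ k ih =>
    rw [pow_succ, o.ord_mul _ _ (pow_ne_zero _ hx) hx, ih]
    push_cast
    ring

theorem ord_zpow {x : F} (hx : x ≠ 0) (k : ℤ) : o.ord (x ^ k) = k * o.ord x := by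
  cases k with
  | ofNat n =>
    rw [Int.ofNat_eq_natCast, zpow_natCast, ord_pow o hx]
  | negSucc n =>
    rw [zpow_negSucc, ord_inv o (pow_ne_zero _ hx), ord_pow o hx, Int.negSucc_eq]
    push_cast
    ring

theorem ord_neg (x : F) : o.ord (-x) = o.ord x := by
  by_cases hx : x = 0
  · rw [hx, neg_zero]
  have h1 : o.ord (-1) = 0 := by
    have h := o.ord_mul (-1) (-1) (neg_ne_zero.2 one_ne_zero) (neg_ne_zero.2 one_ne_zero)
    rw [neg_one_mul, neg_neg, ord_one] at h
    omega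
  rw [← neg_one_mul, o.ord_mul _ _ (neg_ne_zero.2 one_ne_zero) hx, h1, zero_add]

theorem ord_prod {κ : Type*} (s : Finset κ) (g : κ → F) (hg : ∀ i ∈ s, g i ≠ 0) :
    o.ord (∏ i ∈ s, g i) = ∑ i ∈ s, o.ord (g i) := by
  classical
  induction s using Finset.induction_on with
  | empty => simp [ord_one]
  | insert a s ha ih =>
    rw [Finset.prod_insert ha, Finset.sum_insert ha,
      o.ord_mul _ _ (hg a (Finset.mem_insert_self a s))
        (Finset.prod_ne_zero_iff.2 fun i hi => hg i (Finset.mem_insert_of_mem hi)),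
      ih fun i hi => hg i (Finset.mem_insert_of_mem hi)]

theorem ge_ord {x : F} : Ge o (o.ord x) x := Or.inr le_rfl
theorem ge_zero (m : ℤ) : Ge o m 0 := Or.inl rfl

theorem ge_zero_iff (x : F) : Ge o 0 x ↔ x ∈ W := by
  by_cases hx : x = 0
  · rw [hx]
    exact ⟨fun _ => W.zero_mem, fun _ => Or.inl rfl⟩
  · constructor
    · rintro (h | h)
      · exact absurd h hx
      · exact (o.nonneg_iff x hx).1 h
    · intro h
      exact Or.inr ((o.nonneg_iff x hx).2 h)

/-- Auxiliary: `x⁻¹ ∈ W ↔ 1 ≤ v x` for `x ≠ 0`. -/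
theorem inv_mem_iff_one_le_valuation {x : F} (hx : x ≠ 0) :
    x⁻¹ ∈ W ↔ 1 ≤ W.valuation x := by
  have hpos : 0 < W.valuation x := zero_lt_iff.2 ((Valuation.ne_zero_iff _).2 hx)
  rw [← ValuationSubring.valuation_le_one_iff, map_inv₀, inv_le_one₀ hpos]

theorem ge_one_iff (x : F) : Ge o 1 x ↔ x ∈ W.nonunits := by
  rw [ValuationSubring.mem_nonunits_iff]
  by_cases hx : x = 0
  · rw [hx, map_zero]
    exact ⟨fun _ => zero_lt_one, fun _ => Or.inl rfl⟩
  · rw [← not_le, ← inv_mem_iff_one_le_valuation hx, ← o.nonneg_iff _ (inv_ne_zero hx),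
      ord_inv o hx]
    constructor
    · rintro (h | h)
      · exact absurd h hx
      · omega
    · intro h
      exact Or.inr (by omega)

theorem isU_iff (x : F) : IsU W x ↔ x ≠ 0 ∧ o.ord x = 0 := by
  unfold IsU
  by_cases hx : x = 0
  · rw [hx, map_zero]
    exact ⟨fun h => absurd h zero_ne_one, fun h => absurd rfl h.1⟩
  · rw [le_antisymm_iff, ValuationSubring.valuation_le_one_iff,
      ← inv_mem_iff_one_le_valuation hx, ← o.nonneg_iff _ hx, ← o.nonneg_iff _ (inv_ne_zero hx),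
      ord_inv o hx]
    constructor
    · rintro ⟨h1, h2⟩
      exact ⟨hx, by omega⟩
    · rintro ⟨-, h⟩
      constructor <;> omega

theorem cong_iff (x y : F) : Cong W x y ↔ Ge o 1 (x - y) := (ge_one_iff o _).symm

variable {o}

theorem Ge.mono {m m' : ℤ} {x : F} (h : Ge o m x) (hm : m' ≤ m) : Ge o m' x := by
  rcases h with h | h
  · exact Or.inl h
  · exact Or.inr (hm.trans h)

theorem Ge.mul {m m' : ℤ} {x y : F} (hx : Ge o m x) (hy : Ge o m' y) :
    Ge o (m + m') (x * y) := by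
  by_cases hx0 : x = 0
  · exact Or.inl (by rw [hx0, zero_mul])
  by_cases hy0 : y = 0
  · exact Or.inl (by rw [hy0, mul_zero])
  rcases hx with hx | hx
  · exact absurd hx hx0
  rcases hy with hy | hy
  · exact absurd hy hy0
  exact Or.inr (by rw [o.ord_mul _ _ hx0 hy0]; omega)

/-- Auxiliary: `ord x ≥ m` iff `x / ϖ ^ m ∈ W` for a uniformiser `ϖ`. -/
theorem ge_iff_div_zpow_mem {ϖ : F} (hϖ0 : ϖ ≠ 0) (hϖ : o.ord ϖ = 1) (m : ℤ) (x : F) :
    Ge o m x ↔ x / ϖ ^ m ∈ W := by
  by_cases hx : x = 0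
  · rw [hx, zero_div]
    exact ⟨fun _ => W.zero_mem, fun _ => Or.inl rfl⟩
  · have hz : ϖ ^ m ≠ 0 := zpow_ne_zero _ hϖ0
    rw [← o.nonneg_iff _ (div_ne_zero hx hz), ord_div o hx hz, ord_zpow o hϖ0, hϖ, mul_one]
    constructor
    · rintro (h | h)
      · exact absurd h hx
      · omega
    · intro h
      exact Or.inr (by omega)

theorem Ge.add {m : ℤ} {x y : F} (hx : Ge o m x) (hy : Ge o m y) : Ge o m (x + y) := by
  obtain ⟨ϖ, hϖ0, hϖ⟩ := o.exists_one
  rw [ge_iff_div_zpow_mem hϖ0 hϖ] at hx hy ⊢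
  rw [add_div]
  exact W.add_mem _ _ hx hy

theorem Ge.neg {m : ℤ} {x : F} (hx : Ge o m x) : Ge o m (-x) := by
  rcases hx with hx | hx
  · exact Or.inl (by rw [hx, neg_zero])
  · exact Or.inr (by rw [ord_neg]; exact hx)

theorem Ge.sub {m : ℤ} {x y : F} (hx : Ge o m x) (hy : Ge o m y) : Ge o m (x - y) := by
  rw [sub_eq_add_neg]
  exact hx.add hy.neg

theorem Ge.sum {κ : Type*} {m : ℤ} (s : Finset κ) (g : κ → F) (h : ∀ i ∈ s, Ge o m (g i)) :
    Ge o m (∑ i ∈ s, g i) := by
  classical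
  induction s using Finset.induction_on with
  | empty => exact Or.inl Finset.sum_empty
  | insert a s ha ih =>
    rw [Finset.sum_insert ha]
    exact (h a (Finset.mem_insert_self a s)).add (ih fun i hi => h i (Finset.mem_insert_of_mem hi))

theorem Ge.prod {κ : Type*} (s : Finset κ) (g : κ → F) (m : κ → ℤ)
    (h : ∀ i ∈ s, Ge o (m i) (g i)) : Ge o (∑ i ∈ s, m i) (∏ i ∈ s, g i) := by
  classical
  induction s using Finset.induction_on with
  | empty =>
    rw [Finset.sum_empty, Finset.prod_empty]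
    exact Or.inr (by rw [ord_one])
  | insert a s ha ih =>
    rw [Finset.sum_insert ha, Finset.prod_insert ha]
    exact (h a (Finset.mem_insert_self a s)).mul (ih fun i hi => h i (Finset.mem_insert_of_mem hi))

theorem ge_mul_iff {g : F} (hg : g ≠ 0) (m : ℤ) (x : F) :
    Ge o (o.ord g + m) (g * x) ↔ Ge o m x := by
  by_cases hx : x = 0
  · rw [hx, mul_zero]
    exact ⟨fun _ => Or.inl rfl, fun _ => Or.inl rfl⟩
  · unfold Ge
    rw [o.ord_mul _ _ hg hx]
    constructor
    · rintro (h | h)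
      · exact absurd h (mul_ne_zero hg hx)
      · exact Or.inr (by omega)
    · rintro (h | h)
      · exact absurd h hx
      · exact Or.inr (by omega)

end OrdAPI

end Fermat.Agent.BAD.ResNorm
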