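/-
Project BAD, layer RN (owner helper287).  Node RN-1: construction of the adapted family
`b ⟨i, s, k⟩ = g_{i,s} * t_{i,k}` and its independence modulo the maximal ideal.
Proofs: helper61.
-/
import Fermat.Agent.BAD.ResNorm.Defs
import Fermat.Agent.BAD.ResNorm.OrdAPI

set_option autoImplicit false

namespace Fermat.Agent.BAD.ResNorm

open Module

variable {F₁ F₂ : Type*} [Field F₁] [Field F₂] [Algebra F₁ F₂]
variable {V : ValuationSubring F₁} {ι : Type*} [Fintype ι] {W : ι → ValuationSubring F₂}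
variable {oV : Ord V} {oW : ∀ i, Ord (W i)} {e f : ι → ℕ}

theorem Data.mem_iff (D : Data oV oW e f) (i : ι) (x : F₁) :
    algebraMap F₁ F₂ x ∈ W i ↔ x ∈ V := by
  by_cases hx : x = 0
  · subst hx
    rw [map_zero]
    exact ⟨fun _ => zero_mem V, fun _ => zero_mem (W i)⟩
  · have hx' : algebraMap F₁ F₂ x ≠ 0 := (map_ne_zero _).mpr hx
    rw [← (oW i).nonneg_iff _ hx', ← oV.nonneg_iff _ hx, D.ram i x hx]
    have he : (0 : ℤ) < e i := by exact_mod_cast D.e_pos i
    constructor
    · intro h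
      by_contra hneg
      push Not at hneg
      nlinarith
    · intro h
      positivity

theorem Data.ge_algebraMap (D : Data oV oW e f) (i : ι) {x : F₁} {m : ℤ} (hx : Ge oV m x) :
    Ge (oW i) (e i * m) (algebraMap F₁ F₂ x) := by
  rcases hx with rfl | hx
  · left
    exact map_zero _
  · by_cases h0 : x = 0
    · left
      rw [h0, map_zero]
    · right
      rw [D.ram i x h0]
      exact mul_le_mul_of_nonneg_left hx (by positivity)

theorem exists_adapted (D : Data oV oW e f) : ∃ b : Idx e f → F₂, Adapted oV oW e f b := by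
  classical
  have hg : ∀ (i : ι) (s : ℕ), ∃ g : F₂, g ≠ 0 ∧
      ∀ j, (oW j).ord g = if j = i then (s : ℤ) else (e j : ℤ) := fun i s =>
    D.approx fun j => if j = i then (s : ℤ) else (e j : ℤ)
  choose g hg0 hgord using hg
  choose t htW htind using D.res
  have hgself : ∀ i s, (oW i).ord (g i s) = (s : ℤ) := fun i s => by
    rw [hgord i s i, if_pos rfl]
  have hgother : ∀ i s j, j ≠ i → (oW j).ord (g i s) = (e j : ℤ) := fun i s j hj => by
    rw [hgord i s j, if_neg hj]
  have hself : ∀ a : Idx e f, Ge (oW a.1) ((a.2.1 : ℕ) : ℤ) (g a.1 a.2.1 * t a.1 a.2.2) := by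
    intro a
    have h1 : Ge (oW a.1) ((a.2.1 : ℕ) : ℤ) (g a.1 a.2.1) := by
      have := ge_ord (oW a.1) (x := g a.1 a.2.1)
      rwa [hgself] at this
    have h2 : Ge (oW a.1) 0 (t a.1 a.2.2) := (ge_zero_iff _ _).mpr (htW a.1 a.2.2 a.1)
    have := h1.mul h2
    rwa [add_zero] at this
  have hother : ∀ (a : Idx e f) (j : ι), j ≠ a.1 →
      Ge (oW j) (e j : ℤ) (g a.1 a.2.1 * t a.1 a.2.2) := by
    intro a j hj
    have h1 : Ge (oW j) (e j : ℤ) (g a.1 a.2.1) := by
      have := ge_ord (oW j) (x := g a.1 a.2.1)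
      rwa [hgother _ _ _ hj] at this
    have h2 : Ge (oW j) 0 (t a.1 a.2.2) := (ge_zero_iff _ _).mpr (htW a.1 a.2.2 j)
    have := h1.mul h2
    rwa [add_zero] at this
  refine ⟨fun a => g a.1 a.2.1 * t a.1 a.2.2, hself, hother, ?_⟩
  intro x hx i s₀ hs₀ hy
  have hφ : ∀ a, Ge (oW i) 0 (algebraMap F₁ F₂ (x a)) := fun a =>
    (ge_zero_iff _ _).mpr ((D.mem_iff i (x a)).mpr (hx a))
  have key : ∀ s : ℕ, s < s₀ → ∀ (hs : s < e i) (k : Fin (f i)),
      x ⟨i, ⟨s, hs⟩, k⟩ ∈ V.nonunits := by
    intro s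
    induction s using Nat.strong_induction_on with
    | _ s ih =>
      intro hss₀ hs
      let emb : Fin (f i) ↪ Idx e f :=
        ⟨fun k => ⟨i, ⟨s, hs⟩, k⟩, fun k k' h => by
          simpa using h⟩
      let T : Finset (Idx e f) := Finset.univ.map emb
      have hle : ((s : ℤ) + 1) ≤ (e i : ℤ) := by exact_mod_cast hs
      -- the other terms
      have hrest : ∀ a ∈ Tᶜ, Ge (oW i) ((s : ℤ) + 1)
          (algebraMap F₁ F₂ (x a) * (g a.1 a.2.1 * t a.1 a.2.2)) := by
        intro a ha
        rw [Finset.mem_compl] at ha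
        obtain ⟨j, s', k⟩ := a
        by_cases hj : j = i
        · subst hj
          rcases lt_trichotomy (s' : ℕ) s with hlt | heq | hgt
          · have h1 : x ⟨j, s', k⟩ ∈ V.nonunits := ih s' hlt (hlt.trans hss₀) s'.2 k
            have h2 := D.ge_algebraMap j ((ge_one_iff oV _).mpr h1)
            have h3 : Ge (oW j) 0 (g j s' * t j k) :=
              (hself ⟨j, s', k⟩).mono (by positivity)
            have h4 := h2.mul h3
            exact h4.mono (by rw [mul_one, add_zero]; exact hle)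
          · exfalso
            apply ha
            rw [Finset.mem_map]
            refine ⟨k, Finset.mem_univ k, ?_⟩
            have : s' = ⟨s, hs⟩ := Fin.ext heq
            rw [this]
            rfl
          · have h3 := hself ⟨j, s', k⟩
            have h4 := (hφ ⟨j, s', k⟩).mul h3
            refine h4.mono ?_
            rw [zero_add]
            exact_mod_cast hgt
        · have h3 := hother ⟨j, s', k⟩ i (fun h => hj h.symm)
          have h4 := (hφ ⟨j, s', k⟩).mul h3
          exact h4.mono (by rw [zero_add]; exact hle)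
      have hsumrest := Ge.sum (o := oW i) Tᶜ
        (fun a => algebraMap F₁ F₂ (x a) * (g a.1 a.2.1 * t a.1 a.2.2)) hrest
      have hy' : Ge (oW i) ((s : ℤ) + 1)
          (∑ a, algebraMap F₁ F₂ (x a) * (g a.1 a.2.1 * t a.1 a.2.2)) :=
        hy.mono (by exact_mod_cast hss₀)
      have hT : Ge (oW i) ((s : ℤ) + 1)
          (∑ a ∈ T, algebraMap F₁ F₂ (x a) * (g a.1 a.2.1 * t a.1 a.2.2)) := by
        have h5 := hy'.sub hsumrest
        rwa [← Finset.sum_add_sum_compl T, add_sub_cancel_right] at h5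
      have hTeq : ∑ a ∈ T, algebraMap F₁ F₂ (x a) * (g a.1 a.2.1 * t a.1 a.2.2) =
          g i s * ∑ k, algebraMap F₁ F₂ (x ⟨i, ⟨s, hs⟩, k⟩) * t i k := by
        rw [Finset.sum_map, Finset.mul_sum]
        refine Finset.sum_congr rfl fun k _ => ?_
        show algebraMap F₁ F₂ (x ⟨i, ⟨s, hs⟩, k⟩) * (g i s * t i k) = _
        ring
      rw [hTeq, ← hgself i s, ge_mul_iff (hg0 i s), ge_one_iff] at hT
      exact htind i (fun k => x ⟨i, ⟨s, hs⟩, k⟩) (fun k => hx _) hT
  intro s k hs
  exact key s hs s.2 k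

end Fermat.Agent.BAD.ResNorm
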