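/-
Project BAD, layer RN (owner helper287).  Node RN-2: an adapted family is an `F₁`-basis of `F₂`;
the coordinates of integral elements are integral.  Proofs: helper10.
-/
import Fermat.Agent.BAD.ResNorm.Defs
import Fermat.Agent.BAD.ResNorm.OrdAPI
import Fermat.Agent.BAD.ResNorm.Adapted

set_option autoImplicit false

namespace Fermat.Agent.BAD.ResNorm

open Module

section scaling

variable {F₁ : Type*} [Field F₁] {V : ValuationSubring F₁}

/-- a nonzero finite family has an entry of minimal order -/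
theorem basis_aux_exists_min (oV : Ord V) {κ : Type*} [Fintype κ] (x : κ → F₁)
    (hx : ∃ a, x a ≠ 0) :
    ∃ a₀, x a₀ ≠ 0 ∧ ∀ a, x a ≠ 0 → oV.ord (x a₀) ≤ oV.ord (x a) := by
  classical
  obtain ⟨a, ha⟩ := hx
  obtain ⟨a₀, ha₀, hmin⟩ := Finset.exists_min_image (Finset.univ.filter fun a => x a ≠ 0)
    (fun a => oV.ord (x a)) ⟨a, by simp [ha]⟩
  refine ⟨a₀, (Finset.mem_filter.1 ha₀).2, fun a' ha' => hmin a' (by simp [ha'])⟩

/-- dividing by an entry of minimal order makes the family integral -/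
theorem basis_aux_scaled_mem (oV : Ord V) {κ : Type*} (x : κ → F₁) (a₀ : κ)
    (h0 : x a₀ ≠ 0) (hmin : ∀ a, x a ≠ 0 → oV.ord (x a₀) ≤ oV.ord (x a)) (a : κ) :
    x a * (x a₀)⁻¹ ∈ V := by
  by_cases ha : x a = 0
  · rw [ha, zero_mul]; exact zero_mem V
  · rw [← oV.nonneg_iff _ (mul_ne_zero ha (inv_ne_zero h0)),
      oV.ord_mul _ _ ha (inv_ne_zero h0), ord_inv oV h0]
    have := hmin a ha
    omega

theorem basis_aux_one_notMem_nonunits : (1 : F₁) ∉ V.nonunits := by
  rw [ValuationSubring.mem_nonunits_iff, map_one]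
  exact lt_irrefl _

end scaling

variable {F₁ F₂ : Type*} [Field F₁] [Field F₂] [Algebra F₁ F₂]
variable {V : ValuationSubring F₁} {ι : Type*} [Fintype ι] {W : ι → ValuationSubring F₂}
variable {oV : Ord V} {oW : ∀ i, Ord (W i)} {e f : ι → ℕ}

/-- The key step: if `z = ∑ x a • b a` with `x ≠ 0`, `a₀` an entry of minimal order, then
`(x a₀)⁻¹ • z` cannot be divisible by the uniformiser of `V` at all the `W i`. -/
theorem Adapted.basis_aux_key {b : Idx e f → F₂} (hb : Adapted oV oW e f b)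
    (x : Idx e f → F₁) (a₀ : Idx e f) (h0 : x a₀ ≠ 0)
    (hmin : ∀ a, x a ≠ 0 → oV.ord (x a₀) ≤ oV.ord (x a))
    (h : Ge (oW a₀.1) (e a₀.1 : ℤ)
      (algebraMap F₁ F₂ (x a₀)⁻¹ * ∑ a, algebraMap F₁ F₂ (x a) * b a)) : False := by
  have h1 : algebraMap F₁ F₂ (x a₀)⁻¹ * ∑ a, algebraMap F₁ F₂ (x a) * b a =
      ∑ a, algebraMap F₁ F₂ (x a * (x a₀)⁻¹) * b a := by
    rw [Finset.mul_sum]
    refine Finset.sum_congr rfl fun a _ => ?_
    rw [map_mul]
    ring
  rw [h1] at h
  obtain ⟨i, s, k⟩ := a₀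
  have h2 := hb.indep (fun a => x a * (x ⟨i, s, k⟩)⁻¹)
    (basis_aux_scaled_mem oV x ⟨i, s, k⟩ h0 hmin) i (e i) le_rfl h s k s.2
  rw [mul_inv_cancel₀ h0] at h2
  exact basis_aux_one_notMem_nonunits h2

theorem Adapted.linearIndependent {b : Idx e f → F₂} (hb : Adapted oV oW e f b) :
    LinearIndependent F₁ b := by
  rw [Fintype.linearIndependent_iff]
  intro x hx
  by_contra hne
  push Not at hne
  obtain ⟨a₀, h0, hmin⟩ := basis_aux_exists_min oV x hne
  refine hb.basis_aux_key x a₀ h0 hmin ?_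
  have : ∑ a, algebraMap F₁ F₂ (x a) * b a = 0 := by
    rw [← hx]
    exact Finset.sum_congr rfl fun a _ => (Algebra.smul_def _ _).symm
  rw [this, mul_zero]
  exact ge_zero _ _

theorem Adapted.exists_basis (D : Data oV oW e f) {b : Idx e f → F₂} (hb : Adapted oV oW e f b) :
    ∃ B : Basis (Idx e f) F₁ F₂, ∀ a, B a = b a := by
  have := D.finite
  have hcard : Fintype.card (Idx e f) = finrank F₁ F₂ := by
    rw [← D.deg, Fintype.card_sigma]
    exact Finset.sum_congr rfl fun i _ => by rw [Fintype.card_prod, Fintype.card_fin,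
      Fintype.card_fin]
  have : Nonempty (Idx e f) := by
    rw [← Fintype.card_pos_iff, hcard]
    exact finrank_pos
  exact ⟨basisOfLinearIndependentOfCardEqFinrank hb.linearIndependent hcard, fun a => by
    rw [coe_basisOfLinearIndependentOfCardEqFinrank]⟩

/-- an element is the combination of the adapted family given by its coordinates -/
theorem basis_aux_sum_repr {b : Idx e f → F₂} (B : Basis (Idx e f) F₁ F₂) (hB : ∀ a, B a = b a)
    (y : F₂) : ∑ a, algebraMap F₁ F₂ (B.repr y a) * b a = y := by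
  conv_rhs => rw [← B.sum_repr y]
  exact Finset.sum_congr rfl fun a _ => by rw [Algebra.smul_def, hB]

theorem Adapted.repr_mem (D : Data oV oW e f) {b : Idx e f → F₂} (hb : Adapted oV oW e f b)
    (B : Basis (Idx e f) F₁ F₂) (hB : ∀ a, B a = b a) (y : F₂) (hy : ∀ j, y ∈ W j) :
    ∀ a, B.repr y a ∈ V := by
  intro a
  by_contra ha
  have ha0 : B.repr y a ≠ 0 := by
    intro h
    exact ha (h ▸ zero_mem V)
  obtain ⟨a₀, h0, hmin⟩ := basis_aux_exists_min oV (fun a => B.repr y a) ⟨a, ha0⟩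
  have hneg : oV.ord (B.repr y a) < 0 := by
    by_contra hge
    exact ha ((oV.nonneg_iff _ ha0).1 (not_lt.1 hge))
  have hneg0 : oV.ord (B.repr y a₀) < 0 := lt_of_le_of_lt (hmin a ha0) hneg
  refine hb.basis_aux_key (fun a => B.repr y a) a₀ h0 hmin ?_
  rw [basis_aux_sum_repr B hB y]
  have h1 : Ge oV 1 (B.repr y a₀)⁻¹ := by
    right
    rw [ord_inv oV h0]
    omega
  have h2 := D.ge_algebraMap a₀.1 h1
  have h3 : Ge (oW a₀.1) 0 y := (ge_zero_iff _ _).2 (hy a₀.1)
  have h4 := h2.mul h3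
  rwa [mul_one, add_zero] at h4

theorem Adapted.repr_mem_nonunits (D : Data oV oW e f) {b : Idx e f → F₂}
    (hb : Adapted oV oW e f b) (B : Basis (Idx e f) F₁ F₂) (hB : ∀ a, B a = b a) (y : F₂)
    (hy : ∀ j, y ∈ W j) (i : ι) (s₀ : ℕ) (hs : s₀ ≤ e i) (h : Ge (oW i) (s₀ : ℤ) y) :
    ∀ (s : Fin (e i)) (k : Fin (f i)), (s : ℕ) < s₀ → B.repr y ⟨i, s, k⟩ ∈ V.nonunits :=
  hb.indep (fun a => B.repr y a) (hb.repr_mem D B hB y hy) i s₀ hs
    (by rw [basis_aux_sum_repr B hB y]; exact h)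

end Fermat.Agent.BAD.ResNorm
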