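/-
Project BAD, layer RN, task BAD-RN-3 (owner of this file: helper267).
Determinants of matrices over a valuation ring: triangular modulo the maximal ideal; columns divisible
by the uniformiser.  Self-contained (only `BAD/ResNorm/Defs.lean`).
-/
import Fermat.Agent.BAD.ResNorm.Defs

set_option autoImplicit false

namespace Fermat.Agent.BAD.ResNorm

section Det

variable {F₁ : Type*} [Field F₁] {V : ValuationSubring F₁}
variable {n : Type*} [Fintype n] [DecidableEq n]

omit [Fintype n] [DecidableEq n] in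
/-- lift of a matrix with entries in `V`. -/
theorem Det_lift (M : Matrix n n F₁) (hM : ∀ a b, M a b ∈ V) :
    (Matrix.of fun a b => (⟨M a b, hM a b⟩ : V)).map V.subtype = M := by
  ext a b
  rfl

theorem Det_det_lift (M : Matrix n n F₁) (hM : ∀ a b, M a b ∈ V) :
    M.det = (((Matrix.of fun a b => (⟨M a b, hM a b⟩ : V)).det : V) : F₁) := by
  conv_lhs => rw [← Det_lift M hM]
  exact (RingHom.map_det V.subtype _).symm

omit [DecidableEq n] in
/-- a non-trivial permutation moves some point weakly downwards. -/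
theorem Det_exists_le (lvl : n → ℕ) (σ : Equiv.Perm n) (hσ : σ ≠ 1) :
    ∃ i, σ i ≠ i ∧ lvl (σ i) ≤ lvl i := by
  classical
  have hne : (Finset.univ.filter fun i => σ i ≠ i).Nonempty := by
    by_contra h
    rw [Finset.not_nonempty_iff_eq_empty, Finset.filter_eq_empty_iff] at h
    apply hσ
    ext i
    have := h (Finset.mem_univ i)
    simpa using this
  obtain ⟨i, hi, hmax⟩ := Finset.exists_max_image _ lvl hne
  rw [Finset.mem_filter] at hi
  refine ⟨i, hi.2, hmax (σ i) ?_⟩
  rw [Finset.mem_filter]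
  exact ⟨Finset.mem_univ _, fun h => hi.2 (σ.injective h)⟩

/-- determinant of a matrix over a commutative ring which is triangular with respect to a level
function. -/
theorem Det_det_eq_prod {k : Type*} [CommRing k] (N : Matrix n n k) (lvl : n → ℕ)
    (hoff : ∀ a b, a ≠ b → lvl a ≤ lvl b → N a b = 0) : N.det = ∏ a, N a a := by
  rw [Matrix.det_apply, Finset.sum_eq_single 1]
  · simp
  · intro σ _ hσ
    obtain ⟨i, hi, hle⟩ := Det_exists_le lvl σ hσ
    have h0 : ∏ j, N (σ j) j = 0 := Finset.prod_eq_zero (Finset.mem_univ i) (hoff _ _ hi hle)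
    rw [h0, smul_zero]
  · intro h
    exact absurd (Finset.mem_univ _) h

/-- A matrix over `V` which is triangular modulo the maximal ideal (with respect to a level
function), with diagonal `≡ c`. -/
theorem det_sub_prod_mem_nonunits (M : Matrix n n F₁) (lvl : n → ℕ) (c : n → F₁)
    (hM : ∀ a b, M a b ∈ V)
    (hoff : ∀ a b, a ≠ b → lvl a ≤ lvl b → M a b ∈ V.nonunits)
    (hdiag : ∀ a, M a a - c a ∈ V.nonunits) : M.det - ∏ a, c a ∈ V.nonunits := by
  have hc : ∀ a, c a ∈ V := by
    intro a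
    have h1 : M a a - c a ∈ V := V.nonunits_subset (hdiag a)
    have h2 : c a = M a a - (M a a - c a) := by ring
    rw [h2]
    exact V.sub_mem (hM a a) h1
  set M' : Matrix n n V := Matrix.of fun a b => (⟨M a b, hM a b⟩ : V) with hM'
  have hprod : ∏ a, c a = ((∏ a, (⟨c a, hc a⟩ : V) : V) : F₁) := by
    have := map_prod V.subtype (fun a => (⟨c a, hc a⟩ : V)) Finset.univ
    exact this.symm
  have hsub : M.det - ∏ a, c a = ((M'.det - ∏ a, (⟨c a, hc a⟩ : V) : V) : F₁) := by
    rw [Det_det_lift M hM, hprod]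
    rfl
  rw [hsub, ValuationSubring.coe_mem_nonunits_iff, ← IsLocalRing.residue_eq_zero_iff, map_sub,
    RingHom.map_det, map_prod, sub_eq_zero,
    Det_det_eq_prod ((IsLocalRing.residue V).mapMatrix M') lvl ?_]
  · refine Finset.prod_congr rfl fun a _ => ?_
    show IsLocalRing.residue V (M' a a) = IsLocalRing.residue V ⟨c a, hc a⟩
    rw [← sub_eq_zero, ← map_sub, IsLocalRing.residue_eq_zero_iff,
      ← ValuationSubring.coe_mem_nonunits_iff]
    exact hdiag a
  · intro a b hab hle
    show IsLocalRing.residue V (M' a b) = 0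
    rw [IsLocalRing.residue_eq_zero_iff, ← ValuationSubring.coe_mem_nonunits_iff]
    exact hoff a b hab hle

theorem det_mem (M : Matrix n n F₁) (hM : ∀ a b, M a b ∈ V) : M.det ∈ V := by
  rw [Det_det_lift M hM]
  exact Subtype.coe_prop _

section OrdLemmas

variable (oV : Ord V)

omit [Fintype n] [DecidableEq n] in
theorem Det_ord_one : oV.ord 1 = 0 := by
  have h := oV.ord_mul 1 1 one_ne_zero one_ne_zero
  rw [mul_one] at h
  omega

theorem Det_ord_inv {x : F₁} (hx : x ≠ 0) : oV.ord x⁻¹ = - oV.ord x := by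
  have h := oV.ord_mul x x⁻¹ hx (inv_ne_zero hx)
  rw [mul_inv_cancel₀ hx, Det_ord_one] at h
  omega

theorem Det_ord_pow {x : F₁} (hx : x ≠ 0) (k : ℕ) : oV.ord (x ^ k) = k * oV.ord x := by
  induction k with
  | zero => simp [Det_ord_one]
  | succ k ih =>
    rw [pow_succ, oV.ord_mul _ _ (pow_ne_zero k hx) hx, ih]
    push_cast
    ring

theorem Det_one_le_ord {x : F₁} (hx : x ≠ 0) (h : x ∈ V.nonunits) : 1 ≤ oV.ord x := by
  have h0 : 0 ≤ oV.ord x := (oV.nonneg_iff x hx).2 (V.nonunits_subset h)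
  by_contra hlt
  have h1 : oV.ord x = 0 := by omega
  have h2 : x⁻¹ ∈ V := (oV.nonneg_iff _ (inv_ne_zero hx)).1 (by rw [Det_ord_inv oV hx, h1]; simp)
  rw [ValuationSubring.mem_nonunits_iff_exists_mem_maximalIdeal] at h
  obtain ⟨hxV, hm⟩ := h
  rw [IsLocalRing.mem_maximalIdeal, mem_nonunits_iff] at hm
  exact hm (isUnit_iff_exists_inv.mpr ⟨⟨x⁻¹, h2⟩, Subtype.ext (mul_inv_cancel₀ hx)⟩)

end OrdLemmas

/-- If the columns in `S` are divisible by the uniformiser, `ord (det M) ≥ |S|`. -/
theorem ge_det_of_cols (oV : Ord V) (M : Matrix n n F₁) (hM : ∀ a b, M a b ∈ V) (S : Finset n)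
    (hS : ∀ b ∈ S, ∀ a, M a b ∈ V.nonunits) : Ge oV (S.card : ℤ) M.det := by
  obtain ⟨π, hπ0, hπ⟩ := oV.exists_one
  let v : n → F₁ := fun b => if b ∈ S then π else 1
  have hv0 : ∀ b, v b ≠ 0 := by
    intro b
    by_cases hb : b ∈ S
    · simp [v, hb, hπ0]
    · simp [v, hb]
  let M₁ : Matrix n n F₁ := Matrix.of fun a b => M a b / v b
  have hM₁ : ∀ a b, M₁ a b ∈ V := by
    intro a b
    show M a b / v b ∈ V
    by_cases hb : b ∈ S
    · rcases eq_or_ne (M a b) 0 with h0 | h0
      · rw [h0, zero_div]; exact V.zero_mem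
      · have hv : v b = π := by simp [v, hb]
        rw [hv, ← oV.nonneg_iff _ (div_ne_zero h0 hπ0), div_eq_mul_inv,
          oV.ord_mul _ _ h0 (inv_ne_zero hπ0), Det_ord_inv oV hπ0, hπ]
        have := Det_one_le_ord oV h0 (hS b hb a)
        omega
    · have hv : v b = 1 := by simp [v, hb]
      rw [hv, div_one]
      exact hM a b
  have hMeq : M = Matrix.of fun a b => v b * M₁ a b := by
    ext a b
    show M a b = v b * (M a b / v b)
    rw [mul_div_cancel₀ _ (hv0 b)]
  have hdet : M.det = π ^ S.card * M₁.det := by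
    conv_lhs => rw [hMeq]
    rw [Matrix.det_mul_row]
    congr 1
    show ∏ b, (if b ∈ S then π else 1) = π ^ S.card
    rw [Finset.prod_ite_mem, Finset.univ_inter, Finset.prod_const]
  rcases eq_or_ne M₁.det 0 with h0 | h0
  · left
    rw [hdet, h0, mul_zero]
  · right
    rw [hdet, oV.ord_mul _ _ (pow_ne_zero _ hπ0) h0, Det_ord_pow oV hπ0, hπ, mul_one]
    have := (oV.nonneg_iff _ h0).2 (det_mem M₁ hM₁)
    omega

end Det

end Fermat.Agent.BAD.ResNorm
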