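/-
Project BAD, layer RN (owner helper287), node RN-4 (helper128): the residue norm formula for
scalar residues.
-/
import Fermat.Agent.BAD.ResNorm.OrdAPI
import Fermat.Agent.BAD.ResNorm.Det
import Fermat.Agent.BAD.ResNorm.Adapted
import Fermat.Agent.BAD.ResNorm.Basis

set_option autoImplicit false

namespace Fermat.Agent.BAD.ResNorm

open Module

variable {F₁ F₂ : Type*} [Field F₁] [Field F₂] [Algebra F₁ F₂]
variable {V : ValuationSubring F₁} {ι : Type*} [Fintype ι] {W : ι → ValuationSubring F₂}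
variable {oV : Ord V} {oW : ∀ i, Ord (W i)} {e f : ι → ℕ}

/-- **Residue norm formula**, scalar residues. -/
theorem cong_norm (D : Data oV oW e f) (u : F₂) (x : ι → F₁) (hu : ∀ i, IsU (W i) u)
    (hx : ∀ i, Cong (W i) u (algebraMap F₁ F₂ (x i))) :
    Cong V (Algebra.norm F₁ u) (∏ i, x i ^ (e i * f i)) := by
  classical
  obtain ⟨b, hb⟩ := exists_adapted D
  obtain ⟨B, hB⟩ := hb.exists_basis D
  have huW : ∀ i, u ∈ W i := fun i => ((W i).valuation_le_one_iff _).1 (le_of_eq (hu i))
  have hxW : ∀ i, algebraMap F₁ F₂ (x i) ∈ W i := by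
    intro i
    have h1 : u - algebraMap F₁ F₂ (x i) ∈ W i := (W i).nonunits_subset (hx i)
    have : algebraMap F₁ F₂ (x i) = u - (u - algebraMap F₁ F₂ (x i)) := by ring
    rw [this]
    exact (W i).sub_mem (huW i) h1
  have hxV : ∀ i, x i ∈ V := fun i => (D.mem_iff i _).1 (hxW i)
  have hxWj : ∀ i j, algebraMap F₁ F₂ (x i) ∈ W j := fun i j => (D.mem_iff j _).2 (hxV i)
  -- the error terms
  set y : Idx e f → F₂ := fun c => (u - algebraMap F₁ F₂ (x c.1)) * b c with hy
  have hyself : ∀ c : Idx e f, Ge (oW c.1) (((c.2.1 : ℕ) + 1 : ℕ) : ℤ) (y c) := by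
    intro c
    have h1 : Ge (oW c.1) 1 (u - algebraMap F₁ F₂ (x c.1)) := (cong_iff (oW c.1) _ _).1 (hx c.1)
    have h2 := h1.mul (hb.ge_self c)
    refine h2.mono ?_
    push_cast; omega
  have hyother : ∀ (c : Idx e f) (j : ι), j ≠ c.1 → Ge (oW j) (e j : ℤ) (y c) := by
    intro c j hj
    have h1 : Ge (oW j) 0 (u - algebraMap F₁ F₂ (x c.1)) :=
      (ge_zero_iff (oW j) _).2 ((W j).sub_mem (huW j) (hxWj c.1 j))
    have h2 := h1.mul (hb.ge_other c j hj)
    exact h2.mono (by omega)
  have hyW : ∀ (c : Idx e f) (j : ι), y c ∈ W j := by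
    intro c j
    rw [← ge_zero_iff (oW j)]
    by_cases hj : j = c.1
    · subst hj
      exact (hyself c).mono (by positivity)
    · exact (hyother c j hj).mono (by positivity)
  -- the entries of the matrix
  set M := Algebra.leftMulMatrix B u with hM
  have hentry : ∀ a c : Idx e f, M a c = (if a = c then x c.1 else 0) + B.repr (y c) a := by
    intro a c
    rw [hM, Algebra.leftMulMatrix_eq_repr_mul]
    have h1 : u * B c = x c.1 • B c + y c := by
      rw [hy, Algebra.smul_def, hB c]; ring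
    rw [h1, map_add, map_smul, Basis.repr_self, Finsupp.add_apply, Finsupp.smul_apply,
      Finsupp.single_apply, smul_eq_mul]
    congr 1
    by_cases h : a = c
    · simp [h]
    · have h' : ¬ c = a := fun h'' => h h''.symm
      simp [h, h']
  have hrepr : ∀ a c : Idx e f, (a.2.1 : ℕ) ≤ (c.2.1 : ℕ) → B.repr (y c) a ∈ V.nonunits := by
    rintro ⟨i', s', k'⟩ ⟨i, s, k⟩ hle
    by_cases h : i' = i
    · subst h
      exact hb.repr_mem_nonunits D B hB (y ⟨i', s, k⟩) (hyW _) i' ((s : ℕ) + 1) s.2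
        (hyself ⟨i', s, k⟩) s' k' (Nat.lt_succ_of_le hle)
    · exact hb.repr_mem_nonunits D B hB (y ⟨i, s, k⟩) (hyW _) i' (e i') le_rfl
        (hyother ⟨i, s, k⟩ i' h) s' k' s'.2
  have hdet := det_sub_prod_mem_nonunits (V := V) M (fun a => (a.2.1 : ℕ)) (fun a => x a.1)
    (by
      intro a c
      rw [hentry]
      refine V.add_mem _ _ ?_ (hb.repr_mem D B hB (y c) (hyW c) a)
      split_ifs
      · exact hxV _
      · exact V.zero_mem)
    (by
      intro a c hac hle
      rw [hentry, if_neg hac, zero_add]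
      exact hrepr a c hle)
    (by
      intro a
      rw [hentry, if_pos rfl, add_sub_cancel_left]
      exact hrepr a a le_rfl)
  have hprod : ∏ a : Idx e f, x a.1 = ∏ i, x i ^ (e i * f i) := by
    rw [Fintype.prod_sigma]
    refine Finset.prod_congr rfl fun i _ => ?_
    show ∏ _y : Fin (e i) × Fin (f i), x i = _
    rw [Finset.prod_const, Finset.card_univ, Fintype.card_prod, Fintype.card_fin, Fintype.card_fin]
  show Algebra.norm F₁ u - ∏ i, x i ^ (e i * f i) ∈ V.nonunits
  rw [Algebra.norm_eq_matrix_det B u, ← hprod]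
  exact hdet

end Fermat.Agent.BAD.ResNorm
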