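/-
Project BAD, layer RN (owner helper287), node RN-5 (helper107).
The norm of a unit is a unit; `ord N(τ) ≥ f i` for a uniformiser `τ` at `W i` which is a unit at
the other `W j`.
-/
import Fermat.Agent.BAD.ResNorm.OrdAPI
import Fermat.Agent.BAD.ResNorm.Det
import Fermat.Agent.BAD.ResNorm.Adapted
import Fermat.Agent.BAD.ResNorm.Basis

set_option autoImplicit false

namespace Fermat.Agent.BAD.ResNorm

open Module

variable {F₁ F₂ : Type*} [Field F₁] [Field F₂] [Algebra F₁ F₂]
variable {V : ValuationSubring F₁} {ι : Type*} [Fintype ι] {W : ι → ValuationSubring F₂}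
variable {oV : Ord V} {oW : ∀ i, Ord (W i)} {e f : ι → ℕ}

/-- The members of an adapted family are integral at all the `W j`. -/
theorem UnitNorm.adapted_mem {b : Idx e f → F₂} (hb : Adapted oV oW e f b) (a : Idx e f) (j : ι) :
    b a ∈ W j := by
  rw [← ge_zero_iff (oW j)]
  by_cases h : j = a.1
  · subst h
    exact (hb.ge_self a).mono (Int.natCast_nonneg _)
  · exact (hb.ge_other a j h).mono (Int.natCast_nonneg _)

/-- The matrix of the multiplication by an element integral at all the `W j`, in an adapted basis,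
has its entries in `V`. -/
theorem UnitNorm.leftMulMatrix_mem [DecidableEq (Idx e f)] (D : Data oV oW e f)
    {b : Idx e f → F₂} (hb : Adapted oV oW e f b) (B : Basis (Idx e f) F₁ F₂)
    (hB : ∀ a, B a = b a) (y : F₂) (hy : ∀ j, y ∈ W j) (a c : Idx e f) :
    Algebra.leftMulMatrix B y a c ∈ V := by
  rw [Algebra.leftMulMatrix_eq_repr_mul]
  refine hb.repr_mem D B hB _ (fun j => mul_mem (hy j) ?_) a
  rw [hB c]
  exact UnitNorm.adapted_mem hb c j

/-- The norm of an element integral at all the `W j` is in `V`. -/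
theorem UnitNorm.norm_mem (D : Data oV oW e f) (y : F₂) (hy : ∀ j, y ∈ W j) :
    Algebra.norm F₁ y ∈ V := by
  classical
  obtain ⟨b, hb⟩ := exists_adapted D
  obtain ⟨B, hB⟩ := hb.exists_basis D
  rw [Algebra.norm_eq_matrix_det B]
  exact det_mem _ (UnitNorm.leftMulMatrix_mem D hb B hB y hy)

/-- There is at least one valuation above `V`. -/
theorem UnitNorm.nonempty (D : Data oV oW e f) : Nonempty ι := by
  by_contra h
  rw [not_nonempty_iff] at h
  have := D.finite
  have h0 : Module.finrank F₁ F₂ = 0 := by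
    rw [← D.deg]
    exact Finset.sum_of_isEmpty _
  exact (Module.finrank_pos (R := F₁) (M := F₂)).ne' h0

theorem isU_norm (D : Data oV oW e f) (u : F₂) (hu : ∀ i, IsU (W i) u) :
    IsU V (Algebra.norm F₁ u) := by
  obtain ⟨i₀⟩ := UnitNorm.nonempty D
  have hu0 : u ≠ 0 := by
    rintro rfl
    have h := hu i₀
    unfold IsU at h
    rw [map_zero] at h
    exact zero_ne_one h
  have hmem : ∀ j, u ∈ W j := fun j =>
    (ValuationSubring.valuation_le_one_iff (W j) u).mp (le_of_eq (hu j))
  have hmem' : ∀ j, u⁻¹ ∈ W j := fun j =>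
    (ValuationSubring.valuation_le_one_iff (W j) u⁻¹).mp (by
      have h := hu j
      unfold IsU at h
      rw [map_inv₀, h, inv_one])
  have h1 : V.valuation (Algebra.norm F₁ u) ≤ 1 :=
    (ValuationSubring.valuation_le_one_iff V _).mpr (UnitNorm.norm_mem D u hmem)
  have h2 : V.valuation (Algebra.norm F₁ u⁻¹) ≤ 1 :=
    (ValuationSubring.valuation_le_one_iff V _).mpr (UnitNorm.norm_mem D u⁻¹ hmem')
  have h3 : V.valuation (Algebra.norm F₁ u) * V.valuation (Algebra.norm F₁ u⁻¹) = 1 := by
    rw [← map_mul, ← map_mul, mul_inv_cancel₀ hu0, map_one, map_one]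
  unfold IsU
  refine le_antisymm h1 ?_
  calc (1 : V.ValueGroup) = V.valuation (Algebra.norm F₁ u) * V.valuation (Algebra.norm F₁ u⁻¹) :=
        h3.symm
    _ ≤ V.valuation (Algebra.norm F₁ u) * 1 := mul_le_mul' le_rfl h2
    _ = V.valuation (Algebra.norm F₁ u) := mul_one _

theorem ge_norm_of_unif (D : Data oV oW e f) (i : ι) (τ : F₂) (hτ : τ ≠ 0)
    (h1 : (oW i).ord τ = 1) (h0 : ∀ j, j ≠ i → (oW j).ord τ = 0) :
    Ge oV (f i : ℤ) (Algebra.norm F₁ τ) := by
  classical
  obtain ⟨b, hb⟩ := exists_adapted D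
  obtain ⟨B, hB⟩ := hb.exists_basis D
  have hmem : ∀ j, τ ∈ W j := by
    intro j
    rw [← (oW j).nonneg_iff τ hτ]
    by_cases h : j = i
    · subst h; rw [h1]; exact zero_le_one
    · rw [h0 j h]
  have hei : e i - 1 < e i := Nat.sub_lt (D.e_pos i) one_pos
  set g : Fin (f i) → Idx e f := fun k => ⟨i, ⟨e i - 1, hei⟩, k⟩ with hg
  have hginj : Function.Injective g := by
    intro k k' hkk
    simpa [hg] using hkk
  have hcard : (Finset.univ.image g).card = f i := by
    rw [Finset.card_image_of_injective _ hginj, Finset.card_univ, Fintype.card_fin]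
  rw [Algebra.norm_eq_matrix_det B, ← hcard]
  refine ge_det_of_cols oV _ (UnitNorm.leftMulMatrix_mem D hb B hB τ hmem) _ ?_
  intro c hc a
  obtain ⟨k, -, rfl⟩ := Finset.mem_image.mp hc
  rw [Algebra.leftMulMatrix_eq_repr_mul, hB]
  have hy : ∀ j, τ * b (g k) ∈ W j := fun j =>
    mul_mem (hmem j) (UnitNorm.adapted_mem hb (g k) j)
  have hge : ∀ j, Ge (oW j) (e j : ℤ) (τ * b (g k)) := by
    intro j
    by_cases h : j = i
    · subst h
      have hτ1 : Ge (oW j) 1 τ := Or.inr h1.ge
      have hb1 : Ge (oW j) (((e j - 1 : ℕ) : ℕ) : ℤ) (b (g k)) := hb.ge_self (g k)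
      have := hτ1.mul hb1
      have hcast : (1 : ℤ) + ((e j - 1 : ℕ) : ℤ) = (e j : ℤ) := by
        have := D.e_pos j
        omega
      rwa [hcast] at this
    · have hτ0 : Ge (oW j) 0 τ := Or.inr (h0 j h).ge
      have hb0 : Ge (oW j) (e j : ℤ) (b (g k)) := hb.ge_other (g k) j h
      have := hτ0.mul hb0
      rwa [zero_add] at this
  obtain ⟨j, s, l⟩ := a
  exact hb.repr_mem_nonunits D B hB _ hy j (e j) le_rfl (hge j) s l s.2

end Fermat.Agent.BAD.ResNorm
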