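/-
Project BAD, layer RN, node RN-7 (proofs helper5): the residue norm formula for purely
inseparable residue extensions.
-/
import Fermat.Agent.BAD.ResNorm.OrdAPI
import Fermat.Agent.BAD.ResNorm.Adapted
import Fermat.Agent.BAD.ResNorm.CongNorm
import Fermat.Agent.BAD.ResNorm.UnitNorm

set_option autoImplicit false

namespace Fermat.Agent.BAD.ResNorm

variable {F₁ F₂ : Type*} [Field F₁] [Field F₂] [Algebra F₁ F₂]
variable {V : ValuationSubring F₁} {ι : Type*} [Fintype ι] {W : ι → ValuationSubring F₂}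
variable {oV : Ord V} {oW : ∀ i, Ord (W i)} {e f : ι → ℕ}

section InsepAux

variable {F : Type*} [Field F] {U : ValuationSubring F}

theorem Insep.nonunits_mem {x : F} (hx : x ∈ U.nonunits) : x ∈ U := by
  rw [ValuationSubring.mem_nonunits_iff] at hx
  exact (ValuationSubring.valuation_le_one_iff U x).1 hx.le

theorem Insep.nonunits_sub {x y : F} (hx : x ∈ U.nonunits) (hy : y ∈ U.nonunits) :
    x - y ∈ U.nonunits := by
  rw [ValuationSubring.mem_nonunits_iff] at *
  exact U.valuation.map_sub_lt hx hy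

theorem Insep.nonunits_mul {x y : F} (hx : x ∈ U.nonunits) (hy : y ∈ U) :
    x * y ∈ U.nonunits := by
  rw [ValuationSubring.mem_nonunits_iff] at *
  rw [map_mul]
  exact mul_lt_one_of_lt_of_le hx ((ValuationSubring.valuation_le_one_iff U y).2 hy)

theorem Insep.nonunits_of_pow {x : F} (n : ℕ) (hx : x ^ n ∈ U.nonunits) : x ∈ U.nonunits := by
  rw [ValuationSubring.mem_nonunits_iff] at *
  rw [map_pow] at hx
  by_contra h
  exact absurd hx (not_lt.2 (one_le_pow₀ (not_lt.1 h)))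

theorem Insep.isU_mem {x : F} (hx : IsU U x) : x ∈ U :=
  (ValuationSubring.valuation_le_one_iff U x).1 (le_of_eq hx)

theorem Insep.isU_pow {x : F} (hx : IsU U x) (n : ℕ) : IsU U (x ^ n) := by
  unfold IsU at *
  rw [map_pow, hx, one_pow]

theorem Insep.cong_mem {y z : F} (h : Cong U y z) (hy : y ∈ U) : z ∈ U := by
  have h1 : z = y - (y - z) := by ring
  rw [h1]
  exact U.sub_mem hy (Insep.nonunits_mem h)

theorem Insep.cong_pow {y z : F} (h : Cong U y z) (hy : y ∈ U) (hz : z ∈ U) (m : ℕ) :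
    Cong U (y ^ m) (z ^ m) := by
  obtain ⟨c, hc⟩ := sub_dvd_pow_sub_pow (⟨y, hy⟩ : U) ⟨z, hz⟩ m
  have hc' : y ^ m - z ^ m = (y - z) * (c : F) := by
    have := congrArg (fun t : U => (t : F)) hc
    simpa using this
  unfold Cong at *
  rw [hc']
  exact Insep.nonunits_mul h c.2

end InsepAux

/-- Frobenius is injective on the residue field. -/
theorem cong_of_pow_cong (p : ℕ) (hp : p.Prime) (hpV : (p : F₁) ∈ V.nonunits) (r : ℕ) {a b : F₁}
    (ha : a ∈ V) (hb : b ∈ V) (h : Cong V (a ^ p ^ r) (b ^ p ^ r)) : Cong V a b := by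
  obtain ⟨c, hc⟩ := exists_add_pow_prime_pow_eq hp (⟨a - b, V.sub_mem ha hb⟩ : V) ⟨b, hb⟩ r
  have hc' : (a - b + b) ^ p ^ r
      = (a - b) ^ p ^ r + b ^ p ^ r + (p : F₁) * (a - b) * b * (c : F₁) := by
    have := congrArg (fun t : V => (t : F₁)) hc
    simpa using this
  rw [sub_add_cancel] at hc'
  have h1 : (a - b) ^ p ^ r = (a ^ p ^ r - b ^ p ^ r) - (p : F₁) * ((a - b) * b * (c : F₁)) := by
    rw [hc']
    ring
  unfold Cong at *
  apply Insep.nonunits_of_pow (p ^ r)
  rw [h1]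
  exact Insep.nonunits_sub h
    (Insep.nonunits_mul hpV (mul_mem (mul_mem (V.sub_mem ha hb) hb) c.2))

/-- **Residue norm formula**, purely inseparable residue extensions of degrees `f i`. -/
theorem cong_norm_insep (D : Data oV oW e f) (p : ℕ) (hp : p.Prime) (hpV : (p : F₁) ∈ V.nonunits)
    (hf : ∀ i, ∃ a : ℕ, f i = p ^ a) (u : F₂) (x : ι → F₁) (hu : ∀ i, IsU (W i) u)
    (hx : ∀ i, Cong (W i) (u ^ f i) (algebraMap F₁ F₂ (x i))) :
    Cong V (Algebra.norm F₁ u) (∏ i, x i ^ e i) := by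
  choose a ha using hf
  set r : ℕ := ∑ i, a i with hr
  have har : ∀ i, a i ≤ r := fun i =>
    Finset.single_le_sum (f := a) (fun j _ => Nat.zero_le _) (Finset.mem_univ i)
  have hfr : ∀ i, f i * p ^ (r - a i) = p ^ r := fun i => by
    rw [ha i, ← pow_add, Nat.add_sub_cancel' (har i)]
  have hxW : ∀ i, algebraMap F₁ F₂ (x i) ∈ W i := fun i =>
    Insep.cong_mem (hx i) ((W i).pow_mem (Insep.isU_mem (hu i)) _)
  have hxV : ∀ i, x i ∈ V := fun i => (D.mem_iff i (x i)).1 (hxW i)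
  have hu' : ∀ i, IsU (W i) (u ^ p ^ r) := fun i => Insep.isU_pow (hu i) _
  have hx' : ∀ i, Cong (W i) (u ^ p ^ r) (algebraMap F₁ F₂ (x i ^ p ^ (r - a i))) := fun i => by
    have h1 := Insep.cong_pow (hx i) ((W i).pow_mem (Insep.isU_mem (hu i)) _) (hxW i)
      (p ^ (r - a i))
    rwa [← pow_mul, hfr i, ← map_pow] at h1
  have key := cong_norm D (u ^ p ^ r) (fun i => x i ^ p ^ (r - a i)) hu' hx'
  have hprod : ∏ i, (x i ^ p ^ (r - a i)) ^ (e i * f i) = (∏ i, x i ^ e i) ^ p ^ r := by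
    rw [← Finset.prod_pow]
    refine Finset.prod_congr rfl fun i _ => ?_
    rw [← pow_mul, ← pow_mul, ← hfr i]
    congr 1
    ring
  rw [map_pow, hprod] at key
  exact cong_of_pow_cong p hp hpV r (Insep.isU_mem (isU_norm D u hu))
    (V.prod_mem fun i _ => V.pow_mem (hxV i) _) key

end Fermat.Agent.BAD.ResNorm
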