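/-
Project BAD, layer RN, node RN-6: the valuation of a norm, `ord_V N(u) = ∑ f_i ord_i(u)`.
-/
import Fermat.Agent.BAD.ResNorm.OrdAPI
import Fermat.Agent.BAD.ResNorm.UnitNorm

set_option autoImplicit false

namespace Fermat.Agent.BAD.ResNorm

open Module

variable {F₁ F₂ : Type*} [Field F₁] [Field F₂] [Algebra F₁ F₂]
variable {V : ValuationSubring F₁} {ι : Type*} [Fintype ι] {W : ι → ValuationSubring F₂}
variable {oV : Ord V} {oW : ∀ i, Ord (W i)} {e f : ι → ℕ}

/-- **Valuation of a norm.** -/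
theorem ord_norm (D : Data oV oW e f) (u : F₂) (hu : u ≠ 0) :
    oV.ord (Algebra.norm F₁ u) = ∑ i, (f i : ℤ) * (oW i).ord u := by
  classical
  have := D.finite
  have hN0 : ∀ y : F₂, y ≠ 0 → Algebra.norm F₁ y ≠ 0 := fun y hy => Algebra.norm_ne_zero_iff.2 hy
  let N0 : F₂ →*₀ F₁ := { Algebra.norm F₁ with map_zero' := Algebra.norm_zero }
  have hdiv : ∀ x y : F₂, Algebra.norm F₁ (x / y) = Algebra.norm F₁ x / Algebra.norm F₁ y :=
    fun x y => map_div₀ N0 x y
  have hzpow : ∀ (x : F₂) (k : ℤ), Algebra.norm F₁ (x ^ k) = Algebra.norm F₁ x ^ k :=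
    fun x k => map_zpow₀ N0 x k
  -- uniformisers
  choose τ hτ0 hτ using fun i : ι => D.approx (fun j => if j = i then 1 else 0)
  set n : ι → ℤ := fun i => oV.ord (Algebra.norm F₁ (τ i)) with hn
  have hfn : ∀ i, (f i : ℤ) ≤ n i := by
    intro i
    rcases ge_norm_of_unif D i (τ i) (hτ0 i) (by simpa using hτ i i)
      (fun j hj => by simpa [hj] using hτ i j) with h | h
    · exact absurd h (hN0 _ (hτ0 i))
    · exact h
  -- STEP 1
  have step1 : ∀ y : F₂, y ≠ 0 → oV.ord (Algebra.norm F₁ y) = ∑ i, (oW i).ord y * n i := by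
    intro y hy
    set P : F₂ := ∏ i, τ i ^ ((oW i).ord y) with hP
    have hP0 : P ≠ 0 := Finset.prod_ne_zero_iff.2 fun i _ => zpow_ne_zero _ (hτ0 i)
    have hordP : ∀ j, (oW j).ord P = (oW j).ord y := by
      intro j
      rw [hP, ord_prod _ _ _ (fun i _ => zpow_ne_zero _ (hτ0 i)), Finset.sum_eq_single j]
      · rw [ord_zpow _ (hτ0 j), hτ j j, if_pos rfl, mul_one]
      · intro i _ hij
        rw [ord_zpow _ (hτ0 i), hτ i j, if_neg (Ne.symm hij), mul_zero]
      · intro h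
        exact absurd (Finset.mem_univ j) h
    have hU : ∀ j, IsU (W j) (y / P) := fun j =>
      (isU_iff (oW j) _).2 ⟨div_ne_zero hy hP0, by rw [ord_div _ hy hP0, hordP, sub_self]⟩
    have h1 := ((isU_iff oV _).1 (isU_norm D _ hU)).2
    rw [hdiv, ord_div oV (hN0 _ hy) (hN0 _ hP0)] at h1
    have h2 : oV.ord (Algebra.norm F₁ P) = ∑ i, (oW i).ord y * n i := by
      rw [hP, map_prod, ord_prod _ _ _ (fun i _ => hN0 _ (zpow_ne_zero _ (hτ0 i)))]
      refine Finset.sum_congr rfl fun i _ => ?_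
      rw [hzpow, ord_zpow _ (hN0 _ (hτ0 i))]
    linarith
  -- STEP 2
  obtain ⟨π, hπ0, hπ⟩ := oV.exists_one
  have h2 : ∑ i, (e i : ℤ) * n i = ∑ i, (e i : ℤ) * f i := by
    have h3 := step1 (algebraMap F₁ F₂ π) (by simpa using hπ0)
    rw [Algebra.norm_algebraMap, ord_pow _ hπ0, hπ, mul_one, ← D.deg] at h3
    push_cast at h3
    rw [h3]
    exact Finset.sum_congr rfl fun i _ => by rw [D.ram i π hπ0, hπ, mul_one]
  have hnf : ∀ i, n i = f i := by
    by_contra hcon
    push Not at hcon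
    obtain ⟨i0, hi0⟩ := hcon
    have : ∑ i, (e i : ℤ) * f i < ∑ i, (e i : ℤ) * n i :=
      Finset.sum_lt_sum (fun i _ => mul_le_mul_of_nonneg_left (hfn i) (by positivity))
        ⟨i0, Finset.mem_univ _, mul_lt_mul_of_pos_left (lt_of_le_of_ne (hfn i0) (Ne.symm hi0))
          (by exact_mod_cast D.e_pos i0)⟩
    linarith
  rw [step1 u hu]
  exact Finset.sum_congr rfl fun i _ => by rw [hnf i, mul_comm]

end Fermat.Agent.BAD.ResNorm
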