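/-
Project BAD, layer RN (owner helper287).  The consumer statements (language of `BAD/Core/Hyp.lean`),
proved from the nodes.
-/
import Fermat.Agent.BAD.ResNorm.OrdAPI
import Fermat.Agent.BAD.ResNorm.Adapted
import Fermat.Agent.BAD.ResNorm.CongNorm
import Fermat.Agent.BAD.ResNorm.OrdNorm
import Fermat.Agent.BAD.ResNorm.Insep

set_option autoImplicit false
set_option linter.style.haveILetI false

namespace Fermat.Agent.BAD.ResNorm

open Module

variable {F₁ F₂ : Type*} [Field F₁] [Field F₂]

/-- two valuation rings as a family indexed by `Bool` -/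
def pairW (W W' : ValuationSubring F₂) : Bool → ValuationSubring F₂ := fun b => bif b then W' else W

/-- two `Ord`s as a family indexed by `Bool` -/
def pairO {W W' : ValuationSubring F₂} (oW : Ord W) (oW' : Ord W') : ∀ b, Ord (pairW W W' b)
  | false => oW
  | true => oW'

/-- **(RN-A)** `W` (`e = f = 1`) and `W'` (`e = q - 1`, `f = 1`) above `V`, degree `q`. -/
theorem rnA (φ : F₁ →+* F₂)
    (hfin : letI := φ.toAlgebra; FiniteDimensional F₁ F₂) (q : ℕ) (hq : 2 ≤ q)
    (hdeg : letI := φ.toAlgebra; Module.finrank F₁ F₂ = q)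
    {V : ValuationSubring F₁} {W W' : ValuationSubring F₂} (oV : Ord V) (oW : Ord W) (oW' : Ord W')
    (ram : ∀ x : F₁, x ≠ 0 → oW.ord (φ x) = oV.ord x)
    (ram' : ∀ x : F₁, x ≠ 0 → oW'.ord (φ x) = ((q : ℤ) - 1) * oV.ord x)
    (approx : ∀ b b' : ℤ, ∃ g : F₂, g ≠ 0 ∧ oW.ord g = b ∧ oW'.ord g = b') :
    (∀ u : F₂, u ≠ 0 → oV.ord (normAlong φ u) = oW.ord u + oW'.ord u) ∧
    (∀ (u : F₂) (x x' : F₁), IsU W u → IsU W' u → Cong W u (φ x) → Cong W' u (φ x') →
      Cong V (normAlong φ u) (x * x' ^ (q - 1))) := by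
  letI := φ.toAlgebra
  have D : Data (F₁ := F₁) (F₂ := F₂) oV (pairO oW oW') (fun b => bif b then q - 1 else 1)
      (fun _ => 1) := by
    refine ⟨hfin, ?_, ?_, ?_, ?_, ?_⟩
    · rw [hdeg]
      simp only [Fintype.sum_bool, cond_true, cond_false]
      omega
    · rintro (_ | _)
      · exact Nat.one_pos
      · show 0 < q - 1
        omega
    · rintro (_ | _) x hx
      · show oW.ord (φ x) = ((1 : ℕ) : ℤ) * oV.ord x
        rw [ram x hx]; simp
      · show oW'.ord (φ x) = ((q - 1 : ℕ) : ℤ) * oV.ord x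
        rw [ram' x hx, Nat.cast_sub (by omega)]; simp
    · intro b
      obtain ⟨g, hg, h1, h2⟩ := approx (b false) (b true)
      refine ⟨g, hg, ?_⟩
      rintro (_ | _)
      · exact h1
      · exact h2
    · intro i
      refine ⟨fun _ => 1, fun _ j => (pairW W W' j).one_mem, ?_⟩
      intro c hc hsum k
      have hk : k = 0 := Subsingleton.elim _ _
      subst hk
      simp only [Finset.univ_unique, Fin.default_eq_zero, Fin.isValue, mul_one,
        Finset.sum_singleton] at hsum
      rw [← ge_one_iff oV]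
      rw [← ge_one_iff (pairO oW oW' i)] at hsum
      rcases hsum with h0 | h1
      · left
        exact (map_eq_zero (algebraMap F₁ F₂)).mp h0
      · by_cases hc0 : c 0 = 0
        · exact Or.inl hc0
        · right
          revert h1
          rcases i with _ | _
          · intro h1
            have h2 : 1 ≤ oW.ord (φ (c 0)) := h1
            rwa [ram _ hc0] at h2
          · intro h1
            have h2 : 1 ≤ oW'.ord (φ (c 0)) := h1
            rw [ram' _ hc0] at h2
            by_contra hlt
            have h3 : oV.ord (c 0) ≤ 0 := by omega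
            have h4 : (0 : ℤ) ≤ (q : ℤ) - 1 := by
              have : (2 : ℤ) ≤ q := by exact_mod_cast hq
              omega
            nlinarith
  constructor
  · intro u hu
    have h := ord_norm D u hu
    simp only [Fintype.sum_bool, Nat.cast_one, one_mul] at h
    rw [add_comm] at h
    exact h
  · intro u x x' hu hu' hx hx'
    have h := cong_norm D u (fun b => bif b then x' else x)
      (by rintro (_ | _); exacts [hu, hu']) (by rintro (_ | _); exacts [hx, hx'])
    simp only [Fintype.prod_bool, cond_true, cond_false, mul_one, pow_one] at h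
    rw [mul_comm] at h
    exact h

/-- **(RN-B)** `W` the only valuation ring above `V`: `e = 1`, residue extension purely inseparable
of degree `q = [F₂ : F₁]`, generated by the residue of `t`. -/
theorem rnB (φ : F₁ →+* F₂)
    (hfin : letI := φ.toAlgebra; FiniteDimensional F₁ F₂) (q : ℕ) (hq : q.Prime)
    (hdeg : letI := φ.toAlgebra; Module.finrank F₁ F₂ = q)
    {V : ValuationSubring F₁} {W : ValuationSubring F₂} (oV : Ord V) (oW : Ord W)
    (ram : ∀ x : F₁, x ≠ 0 → oW.ord (φ x) = oV.ord x)
    (hqV : (q : F₁) ∈ V.nonunits)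
    (t : F₂) (ht : t ∈ W)
    (hind : ∀ c : Fin q → F₁, (∀ k, c k ∈ V) → ∑ k, φ (c k) * t ^ (k : ℕ) ∈ W.nonunits →
      ∀ k, c k ∈ V.nonunits)
    (hpow : ∀ y ∈ W, ∃ x : F₁, Cong W (y ^ q) (φ x)) :
    (∀ u : F₂, u ≠ 0 → oV.ord (normAlong φ u) = q * oW.ord u) ∧
    (∀ u : F₂, IsU W u → Cong W (φ (normAlong φ u)) (u ^ q)) := by
  letI := φ.toAlgebra
  have D : Data (F₁ := F₁) (F₂ := F₂) (ι := Unit) (W := fun _ => W) oV (fun _ => oW) (fun _ => 1)
      (fun _ => q) := by
    refine ⟨hfin, ?_, fun _ => Nat.one_pos, ?_, ?_, ?_⟩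
    · rw [hdeg]; simp
    · intro _ x hx
      show oW.ord (φ x) = ((1 : ℕ) : ℤ) * oV.ord x
      rw [ram x hx]; simp
    · intro b
      obtain ⟨ϖ, hϖ0, hϖ⟩ := oW.exists_one
      exact ⟨ϖ ^ b (), zpow_ne_zero _ hϖ0, fun _ => by rw [ord_zpow oW hϖ0, hϖ, mul_one]⟩
    · intro _
      exact ⟨fun k => t ^ (k : ℕ), fun k _ => W.pow_mem ht _, hind⟩
  constructor
  · intro u hu
    have h := ord_norm D u hu
    simp only [Finset.univ_unique, Finset.sum_const, Finset.card_singleton, one_smul] at h
    exact h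
  · intro u hu
    have huW : u ∈ W := ((isU_iff oW u).mp hu) |> fun h => (oW.nonneg_iff u h.1).mp (by rw [h.2])
    obtain ⟨x, hx⟩ := hpow u huW
    have h := cong_norm_insep D q hq hqV (fun _ => ⟨1, (pow_one q).symm⟩) u (fun _ => x)
      (fun _ => hu) (fun _ => hx)
    simp only [Finset.univ_unique, pow_one, Finset.prod_const, Finset.card_singleton] at h
    -- transport the congruence along `φ`
    have h1 : Cong W (φ (normAlong φ u)) (φ x) := by
      rw [cong_iff oW, ← map_sub]
      rw [cong_iff oV] at h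
      have := D.ge_algebraMap () h
      simp only [Nat.cast_one, mul_one] at this
      exact this
    rw [cong_iff oW] at h1 hx ⊢
    have := h1.sub hx
    have e : φ (normAlong φ u) - φ x - (u ^ q - φ x) = φ (normAlong φ u) - u ^ q := by ring
    rwa [e] at this

/-- **(RN-C)** `W` (`e = f = 1`) and `W'` (`e = 1`, residue extension purely inseparable of degree
`q`, generated by the residue of `t`) above `V`, degree `q + 1`. -/
theorem rnC (φ : F₁ →+* F₂)
    (hfin : letI := φ.toAlgebra; FiniteDimensional F₁ F₂) (q : ℕ) (hq : q.Prime)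
    (hdeg : letI := φ.toAlgebra; Module.finrank F₁ F₂ = q + 1)
    {V : ValuationSubring F₁} {W W' : ValuationSubring F₂} (oV : Ord V) (oW : Ord W) (oW' : Ord W')
    (ram : ∀ x : F₁, x ≠ 0 → oW.ord (φ x) = oV.ord x)
    (ram' : ∀ x : F₁, x ≠ 0 → oW'.ord (φ x) = oV.ord x)
    (approx : ∀ b b' : ℤ, ∃ g : F₂, g ≠ 0 ∧ oW.ord g = b ∧ oW'.ord g = b')
    (hqV : (q : F₁) ∈ V.nonunits)
    (t : F₂) (ht : t ∈ W) (ht' : t ∈ W')
    (hind : ∀ c : Fin q → F₁, (∀ k, c k ∈ V) → ∑ k, φ (c k) * t ^ (k : ℕ) ∈ W'.nonunits →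
      ∀ k, c k ∈ V.nonunits) :
    (∀ u : F₂, u ≠ 0 → oV.ord (normAlong φ u) = oW.ord u + q * oW'.ord u) ∧
    (∀ (u : F₂) (x x' : F₁), IsU W u → IsU W' u → Cong W u (φ x) → Cong W' (u ^ q) (φ x') →
      Cong V (normAlong φ u) (x * x')) := by
  letI := φ.toAlgebra
  have D : Data (F₁ := F₁) (F₂ := F₂) oV (pairO oW oW') (fun _ => 1)
      (fun b => bif b then q else 1) := by
    refine ⟨hfin, ?_, fun _ => Nat.one_pos, ?_, ?_, ?_⟩
    · rw [hdeg]
      simp only [Fintype.sum_bool, cond_true, cond_false]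
      omega
    · rintro (_ | _) x hx
      · show oW.ord (φ x) = ((1 : ℕ) : ℤ) * oV.ord x
        rw [ram x hx]; simp
      · show oW'.ord (φ x) = ((1 : ℕ) : ℤ) * oV.ord x
        rw [ram' x hx]; simp
    · intro b
      obtain ⟨g, hg, h1, h2⟩ := approx (b false) (b true)
      refine ⟨g, hg, ?_⟩
      rintro (_ | _)
      · exact h1
      · exact h2
    · rintro (_ | _)
      · refine ⟨fun _ => 1, fun _ j => (pairW W W' j).one_mem, ?_⟩
        intro (c : Fin 1 → F₁) hc hsum (k : Fin 1)
        have hk : k = (0 : Fin 1) := Subsingleton.elim _ _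
        subst hk
        have hsum' : φ (c (0 : Fin 1)) ∈ W.nonunits := by
          have : ∑ k : Fin 1, φ (c k) * 1 ∈ W.nonunits := hsum
          simpa using this
        rw [← ge_one_iff oV]
        rw [← ge_one_iff oW] at hsum'
        rcases hsum' with h0 | h1
        · exact Or.inl ((map_eq_zero φ).mp h0)
        · by_cases hc0 : c (0 : Fin 1) = 0
          · exact Or.inl hc0
          · right
            rwa [ram _ hc0] at h1
      · refine ⟨fun k : Fin q => t ^ (k : ℕ), fun k j => ?_, hind⟩
        rcases j with _ | _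
        · exact W.pow_mem ht _
        · exact W'.pow_mem ht' _
  constructor
  · intro u hu
    have h := ord_norm D u hu
    simp only [Fintype.sum_bool, cond_true, cond_false, Nat.cast_one, one_mul] at h
    rw [add_comm] at h
    exact h
  · intro u x x' hu hu' hx hx'
    have h := cong_norm_insep D q hq hqV
      (by rintro (_ | _); exacts [⟨0, (pow_zero q).symm⟩, ⟨1, (pow_one q).symm⟩]) u
      (fun b => bif b then x' else x)
      (by rintro (_ | _); exacts [hu, hu'])
      (by
        rintro (_ | _)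
        · show Cong W (u ^ 1) (φ x)
          rwa [pow_one]
        · exact hx')
    simp only [Fintype.prod_bool, cond_true, cond_false, pow_one] at h
    rw [mul_comm] at h
    exact h

end Fermat.Agent.BAD.ResNorm
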